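/-
Programme T1B, slice ALP (helper90 owner, helper20 second), part (AL1) (helper20):
the ATKIN–LEHNER INVOLUTION `w_p` of `F̄_{M p} = FF (M * p)` (`p` prime, `p ∤ M`), built from the
Atkin–Lehner expansion `W_p` of `ES/KRON/Conjugates11.exists_W`
(`W_p ∘ β_p = id`, `W_p ∘ α_p = (q ↦ q^p)` as Laurent series).

* `ringHom_ext_alpha_beta` : a ring hom out of `FF (M * p)` into a field is determined by its
  values on `α_p (FF M) ∪ β_p (FF M)` (no hypothesis `p ∤ M` needed);
* `Wp M p hp hpM : FF (M * p) →+* Kbar((q))` with `Wp_beta`, `Wp_alpha`, `Wp_unique`, `Wp_const`;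
* `Wp_mem` : the values of `W_p` lie in `F̄_{M p}` again;
* `alHom`, `alBar M p hp hpM : FF (M * p) ≃ₐ[Kbar] FF (M * p)` with `coe_alBar` (`= W_p`),
  `alBar_alpha` (`= β_p`), `alBar_beta` (`= α_p`), `alBar_alBar` (involution), `Wp_alBar`.
-/
import Mathlib
import Fermat.Agent.ES.KRON.Conjugates11

set_option autoImplicit false
set_option linter.unusedSectionVars false

noncomputable section

namespace Fermat.Agent.T1B.ALP90.AL1

open ModularCurve IntermediateField
open Fermat.Agent.X0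
open Fermat.Agent.ES.KRON.Conjugates11

variable (M p : ℕ) [NeZero M] [NeZero p]

/-! ### Generation of `FF (M * p)` by `α_p (FF M) ∪ β_p (FF M)` -/

/-- Every generator `j_d`, `d ∣ M p`, of `FF (M * p)` is `α_p (j_d)` or `β_p (j_{d/p})`. -/
theorem jdF_mem_alpha_or_beta (hp : p.Prime) (d' : ℕ) [NeZero d'] (hd' : d' ∣ M * p) :
    (∃ x : FF M, jdF (M * p) d' hd' = heckeAlphaBar Kbar M p x) ∨
      (∃ x : FF M, jdF (M * p) d' hd' = heckeBetaBar Kbar M p x) := by
  rcases dvd_mul_prime_cases M p hp hd' with hdM | ⟨d, hdM, hdd⟩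
  · left
    exact ⟨jdF M d' hdM, (alpha_jdF M p d' hdM hd').symm⟩
  · right
    subst hdd
    have hd0 : NeZero d := ⟨fun h0 => NeZero.ne (d * p) (by rw [h0, zero_mul])⟩
    exact ⟨jdF M d hdM, (beta_jdF M p d hdM hd').symm⟩

/-- **Ext lemma.**  Two ring homs out of `FF (M * p)` into a field which agree on `α_p (FF M)` and
on `β_p (FF M)` are equal. -/
theorem ringHom_ext_alpha_beta {L : Type*} [Field L] (hp : p.Prime) {φ ψ : FF (M * p) →+* L}
    (hα : ∀ x : FF M, φ (heckeAlphaBar Kbar M p x) = ψ (heckeAlphaBar Kbar M p x))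
    (hβ : ∀ x : FF M, φ (heckeBetaBar Kbar M p x) = ψ (heckeBetaBar Kbar M p x)) : φ = ψ := by
  apply CuspEquiv.ringHom_ext_Rsub
  intro r
  induction r using FracR.Rsub_induction with
  | hgen d hd =>
      rw [FracR.coe_jdR]
      rcases jdF_mem_alpha_or_beta M p hp d hd with ⟨x, hx⟩ | ⟨x, hx⟩
      · rw [hx, hα]
      · rw [hx, hβ]
  | hconst c =>
      have h := hα (algebraMap Kbar (FF M) c)
      rw [AlgHom.commutes] at h
      exact h
  | hadd a b ha hb => rw [Subalgebra.coe_add, map_add, map_add, ha, hb]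
  | hmul a b ha hb => rw [Subalgebra.coe_mul, map_mul, map_mul, ha, hb]

/-- `AlgHom` version of the ext lemma. -/
theorem algHom_ext_alpha_beta {L : Type*} [Field L] [Algebra Kbar L] (hp : p.Prime)
    {φ ψ : FF (M * p) →ₐ[Kbar] L}
    (hα : ∀ x : FF M, φ (heckeAlphaBar Kbar M p x) = ψ (heckeAlphaBar Kbar M p x))
    (hβ : ∀ x : FF M, φ (heckeBetaBar Kbar M p x) = ψ (heckeBetaBar Kbar M p x)) : φ = ψ := by
  have h : (φ : FF (M * p) →+* L) = (ψ : FF (M * p) →+* L) :=
    ringHom_ext_alpha_beta M p hp hα hβ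
  exact AlgHom.ext fun x => DFunLike.congr_fun h x

/-! ### The Atkin–Lehner expansion `W_p` -/

/-- **The Atkin–Lehner expansion at `p`**: `W_p : F̄_{M p} → ℚbar((q))`, the compressed expansion
at the cusp `p / M` (`= w_p (∞)`). -/
def Wp (hp : p.Prime) (hpM : ¬ p ∣ M) : FF (M * p) →+* LaurentSeries Kbar :=
  (exists_W M p hp hpM).choose

/-- `W_p ∘ β_p = id` (as series). -/
theorem Wp_beta (hp : p.Prime) (hpM : ¬ p ∣ M) (h : FF M) :
    Wp M p hp hpM (heckeBetaBar Kbar M p h) = (h : LaurentSeries Kbar) :=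
  (exists_W M p hp hpM).choose_spec.1 h

/-- `W_p ∘ α_p = (q ↦ q^p)`. -/
theorem Wp_alpha (hp : p.Prime) (hpM : ¬ p ∣ M) (f : FF M) :
    Wp M p hp hpM (heckeAlphaBar Kbar M p f) = qExpand Kbar p (f : LaurentSeries Kbar) :=
  (exists_W M p hp hpM).choose_spec.2 f

/-- Uniqueness of `W_p`. -/
theorem Wp_unique (hp : p.Prime) (hpM : ¬ p ∣ M) (W : FF (M * p) →+* LaurentSeries Kbar)
    (hβ : ∀ h : FF M, W (heckeBetaBar Kbar M p h) = (h : LaurentSeries Kbar))
    (hα : ∀ f : FF M, W (heckeAlphaBar Kbar M p f) = qExpand Kbar p (f : LaurentSeries Kbar)) :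
    W = Wp M p hp hpM :=
  ringHom_ext_alpha_beta M p hp (fun x => by rw [hα, Wp_alpha]) (fun x => by rw [hβ, Wp_beta])

/-- `W_p` is the identity on constants. -/
theorem Wp_algebraMap (hp : p.Prime) (hpM : ¬ p ∣ M) (c : Kbar) :
    Wp M p hp hpM (algebraMap Kbar (FF (M * p)) c) = algebraMap Kbar (LaurentSeries Kbar) c := by
  have h := Wp_beta M p hp hpM (algebraMap Kbar (FF M) c)
  rw [AlgHom.commutes] at h
  exact h

/-- `W_p` is the identity on constants (`HahnSeries.C` form). -/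
theorem Wp_const (hp : p.Prime) (hpM : ¬ p ∣ M) (c : Kbar) :
    Wp M p hp hpM (algebraMap Kbar (FF (M * p)) c) = HahnSeries.C c := by
  rw [Wp_algebraMap, HahnSeries.C_apply]
  exact algebraMap_laurentSeries_eq_single Kbar c

/-- `W_p` as a `ℚbar`-algebra homomorphism. -/
def WpAlg (hp : p.Prime) (hpM : ¬ p ∣ M) : FF (M * p) →ₐ[Kbar] LaurentSeries Kbar :=
  { Wp M p hp hpM with
    commutes' := fun c => Wp_algebraMap M p hp hpM c }

@[simp] theorem WpAlg_apply (hp : p.Prime) (hpM : ¬ p ∣ M) (x : FF (M * p)) :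
    WpAlg M p hp hpM x = Wp M p hp hpM x := rfl

/-- The values of `W_p` lie in `F̄_{M p}` again. -/
theorem Wp_mem (hp : p.Prime) (hpM : ¬ p ∣ M) (x : FF (M * p)) :
    Wp M p hp hpM x ∈ modularFunctionFieldBar (M * p) := by
  have htop : IntermediateField.adjoin Kbar (genSet (M * p)) ≤
      (modularFunctionFieldBar (M * p)).comap (WpAlg M p hp hpM) := by
    rw [IntermediateField.adjoin_le_iff]
    rintro _ ⟨d, hne, hd, rfl⟩
    have := hne
    show Wp M p hp hpM (jdF (M * p) d hd) ∈ modularFunctionFieldBar (M * p)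
    rcases jdF_mem_alpha_or_beta M p hp d hd with ⟨x, hx⟩ | ⟨x, hx⟩
    · rw [hx, Wp_alpha, ← coe_heckeBetaBar (L := Kbar) M p x]
      exact (heckeBetaBar Kbar M p x).2
    · rw [hx, Wp_beta, ← coe_heckeAlphaBar (L := Kbar) M p x]
      exact (heckeAlphaBar Kbar M p x).2
  exact htop (FracR.mem_adjoin_genSet (M * p) x)

/-! ### The Atkin–Lehner involution `w_p` of `F̄_{M p}` -/

/-- **The Atkin–Lehner involution `w_p` of `F̄_{M p}`**, as an algebra endomorphism. -/
def alHom (hp : p.Prime) (hpM : ¬ p ∣ M) : FF (M * p) →ₐ[Kbar] FF (M * p) :=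
  (WpAlg M p hp hpM).codRestrict (modularFunctionFieldBar (M * p)).toSubalgebra
    (Wp_mem M p hp hpM)

@[simp] theorem coe_alHom (hp : p.Prime) (hpM : ¬ p ∣ M) (x : FF (M * p)) :
    ((alHom M p hp hpM x : FF (M * p)) : LaurentSeries Kbar) = Wp M p hp hpM x := rfl

/-- `w_p ∘ α_p = β_p`. -/
theorem alHom_alpha (hp : p.Prime) (hpM : ¬ p ∣ M) (f : FF M) :
    alHom M p hp hpM (heckeAlphaBar Kbar M p f) = heckeBetaBar Kbar M p f := by
  apply Subtype.ext
  rw [coe_alHom, Wp_alpha, coe_heckeBetaBar]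

/-- `w_p ∘ β_p = α_p`. -/
theorem alHom_beta (hp : p.Prime) (hpM : ¬ p ∣ M) (h : FF M) :
    alHom M p hp hpM (heckeBetaBar Kbar M p h) = heckeAlphaBar Kbar M p h := by
  apply Subtype.ext
  rw [coe_alHom, Wp_beta, coe_heckeAlphaBar]

/-- `w_p` is an involution. -/
theorem alHom_comp_alHom (hp : p.Prime) (hpM : ¬ p ∣ M) :
    (alHom M p hp hpM).comp (alHom M p hp hpM) = AlgHom.id Kbar (FF (M * p)) := by
  apply algHom_ext_alpha_beta M p hp
  · intro x
    rw [AlgHom.comp_apply, alHom_alpha, alHom_beta]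
    rfl
  · intro x
    rw [AlgHom.comp_apply, alHom_beta, alHom_alpha]
    rfl

theorem alHom_alHom (hp : p.Prime) (hpM : ¬ p ∣ M) (x : FF (M * p)) :
    alHom M p hp hpM (alHom M p hp hpM x) = x :=
  DFunLike.congr_fun (alHom_comp_alHom M p hp hpM) x

/-- **The Atkin–Lehner involution `w_p`** of `F̄_{M p}`, as an algebra automorphism. -/
def alBar (hp : p.Prime) (hpM : ¬ p ∣ M) : FF (M * p) ≃ₐ[Kbar] FF (M * p) :=
  AlgEquiv.ofAlgHom (alHom M p hp hpM) (alHom M p hp hpM) (alHom_comp_alHom M p hp hpM)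
    (alHom_comp_alHom M p hp hpM)

@[simp] theorem alBar_apply (hp : p.Prime) (hpM : ¬ p ∣ M) (x : FF (M * p)) :
    alBar M p hp hpM x = alHom M p hp hpM x := rfl

@[simp] theorem alBar_symm_apply (hp : p.Prime) (hpM : ¬ p ∣ M) (x : FF (M * p)) :
    (alBar M p hp hpM).symm x = alHom M p hp hpM x := rfl

/-- The `q`-expansion of `w_p x` is the Atkin–Lehner expansion `W_p x`. -/
theorem coe_alBar (hp : p.Prime) (hpM : ¬ p ∣ M) (x : FF (M * p)) :
    ((alBar M p hp hpM x : FF (M * p)) : LaurentSeries Kbar) = Wp M p hp hpM x := rfl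

theorem alBar_alpha (hp : p.Prime) (hpM : ¬ p ∣ M) (f : FF M) :
    alBar M p hp hpM (heckeAlphaBar Kbar M p f) = heckeBetaBar Kbar M p f :=
  alHom_alpha M p hp hpM f

theorem alBar_beta (hp : p.Prime) (hpM : ¬ p ∣ M) (h : FF M) :
    alBar M p hp hpM (heckeBetaBar Kbar M p h) = heckeAlphaBar Kbar M p h :=
  alHom_beta M p hp hpM h

theorem alBar_alBar (hp : p.Prime) (hpM : ¬ p ∣ M) (x : FF (M * p)) :
    alBar M p hp hpM (alBar M p hp hpM x) = x :=
  alHom_alHom M p hp hpM x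

/-- The `q`-expansion at `∞` is the Atkin–Lehner expansion of `w_p x`: `ι = W_p ∘ w_p`. -/
theorem Wp_alBar (hp : p.Prime) (hpM : ¬ p ∣ M) (x : FF (M * p)) :
    Wp M p hp hpM (alBar M p hp hpM x) = (x : LaurentSeries Kbar) := by
  rw [← coe_alBar, alBar_alBar]

/-- `W_p` is injective. -/
theorem Wp_injective (hp : p.Prime) (hpM : ¬ p ∣ M) : Function.Injective (Wp M p hp hpM) :=
  (Wp M p hp hpM).injective

end Fermat.Agent.T1B.ALP90.AL1
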